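import Fermat.Agent.PadicClassNumber.Main
import Fermat.Agent.AbelianFE.KlingenSiegel

/-!
# From the complex characters to those with values in `ℂ_p`

For `E ⊆ ℚ(ζ_N)` the primitive characters of `E` in `ℂ` and in `ℂ_p` correspond through the
algebraic numbers: hence the Euler factor at `p ∤ N` (`euler_pow`, `euler_inv`) and the rational
value `ζ_E(1 - m) = ∏ -B_{m,χ} / m` (`exists_rat_value`).
-/

set_option autoImplicit false
set_option linter.unusedSectionVars false
set_option linter.style.haveILetI false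

noncomputable section

open NumberField Finset
open FA.PadicClassNumber
open FA.PadicDirichletL (bernChar)
open scoped Classical

namespace FA.PadicZetaResidue

variable {p : ℕ} [hp : Fact p.Prime] (N : ℕ) [NeZero N] (K : Type) [Field K] [NumberField K]
  [IsCyclotomicExtension {N} ℚ K] [IsAbelianGalois ℚ K] (E : IntermediateField ℚ K) [IsGalois ℚ E]

/-- All the characters trivial on the group of `E`. -/
def allChars : Finset (DirichletCharacter ℂ_[p] N) := insert 1 (charSet N K E)

theorem mem_allChars {χ : DirichletCharacter ℂ_[p] N} : χ ∈ allChars N K E ↔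
    ∀ σ ∈ E.fixingSubgroup, χ (IsCyclotomicExtension.Rat.galEquivZMod N K σ) = 1 := by
  rw [allChars, mem_insert, charSet, mem_filter]
  by_cases h : χ = 1
  · subst h
    exact iff_of_true (Or.inl rfl) fun σ _ => MulChar.one_apply_coe _
  · simp [h]

theorem prod_allChars (g : DirichletCharacter ℂ_[p] N → ℂ_[p]) :
    ∏ χ ∈ allChars N K E, g χ = g 1 * ∏ χ ∈ charSet N K E, g χ :=
  prod_insert (by simp [charSet])

/-- **The two sets of characters.** -/
theorem prod_fieldChars {R : Type*} [CommMonoid R]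
    (Φ : (q : ℕ) → DirichletCharacter ℂ q → R) :
    ∏ χ ∈ univ.filter (fun χ : DirichletCharacter ℂ N => χ ∈ FA.AbelianZeta.fieldChars N K E),
        Φ χ.conductor χ.primitiveCharacter =
      ∏ χ ∈ allChars (p := p) N K E,
        Φ χ.conductor ((algChar χ.primitiveCharacter).ringHomComp (toC p)) := by
  set j : DirichletCharacter ℂ_[p] N → DirichletCharacter ℂ N :=
    fun χ => (algChar χ).ringHomComp (toC p)
  have hinj : Function.Injective j := fun a b h =>
    algChar_injective (MulChar.ext fun u => (toC p).injective (DFunLike.congr_fun h (u : ZMod N)))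
  have himg : univ.filter (fun χ : DirichletCharacter ℂ N =>
      χ ∈ FA.AbelianZeta.fieldChars N K E) = (allChars N K E).image j := by
    refine (eq_of_subset_of_card_le (fun χ hχ => ?_) ?_).symm
    · obtain ⟨a, ha, rfl⟩ := mem_image.1 hχ
      refine mem_filter.2 ⟨mem_univ _, (FA.AbelianZeta.mem_fieldChars_iff N K E).2 fun σ hσ => ?_⟩
      rw [MulChar.ringHomComp_apply, show algChar a
        (IsCyclotomicExtension.Rat.galEquivZMod N K σ : ZMod N) = 1 from
          Subtype.ext ((mem_allChars N K E).1 ha σ hσ), map_one]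
    · rw [card_image_of_injective _ hinj, FA.ConductorDiscr.card_chars_eq K E (RingEquiv.refl E),
        allChars, card_insert_of_notMem (by simp [charSet]), card_charSet_add_one N K E]
  rw [himg, prod_image fun a _ b _ h => hinj h]
  refine prod_congr rfl fun χ _ => ?_
  exact FA.AbelianFE.primitive_unique χ.conductor_dvd_level
    (isPrimitive_ringHomComp (toC p) (isPrimitive_algChar χ.primitiveCharacter_isPrimitive))
    (by rw [ringHomComp_changeLevel (toC p) χ.conductor_dvd_level,
      algChar_changeLevel χ.conductor_dvd_level, χ.changeLevel_primitiveCharacter]) Φ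

/-- The Euler factor at `p`, before the embedding. -/
theorem prod_euler (hNp : N.Coprime p) (T : AlgNum p) :
    ∏ χ ∈ allChars (p := p) N K E,
        (1 - algChar χ.primitiveCharacter (p : ZMod χ.conductor) * T) =
      (1 - T ^ (Ideal.span {(p : ℤ)}).inertiaDegIn (𝓞 E)) ^
        ((Ideal.span {(p : ℤ)}).primesOver (𝓞 E)).ncard := by
  refine (toC p).injective ?_
  simp only [map_prod, map_sub, map_one, map_mul, map_pow]
  let _ : Fintype (FA.AbelianZeta.fieldChars N K E) := Fintype.ofFinite _
  rw [← FA.AbelianZeta.prod_primitive_eq N K E (k := 0) (m := N) (by simp)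
    (FA.PadicDirichletL.not_dvd_level hNp) (toC p T)]
  refine ((prod_fieldChars (p := p) N K E fun q (ψ : DirichletCharacter ℂ q) =>
    1 - ψ (p : ZMod q) * toC p T).symm).trans ?_
  exact prod_subtype _ (fun χ => by simp) _

theorem span_ne_bot : Ideal.span {(p : ℤ)} ≠ ⊥ := by
  simp [hp.out.ne_zero]

instance isMaximal_span_prime : (Ideal.span {(p : ℤ)}).IsMaximal :=
  Ideal.IsPrime.isMaximal ((Ideal.span_singleton_prime (by exact_mod_cast hp.out.ne_zero)).mpr
    (Nat.prime_iff_prime_int.mp hp.out)) span_ne_bot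

/-- A product over the primes above `p`. -/
theorem prod_primes_eq {R : Type*} [CommMonoid R] (g : ℕ → R) :
    ∏ P ∈ IsDedekindDomain.primesOverFinset (Ideal.span {(p : ℤ)}) (𝓞 E),
        g (Ideal.absNorm P) =
      g (p ^ (Ideal.span {(p : ℤ)}).inertiaDegIn (𝓞 E)) ^
        ((Ideal.span {(p : ℤ)}).primesOver (𝓞 E)).ncard := by
  rw [← IsDedekindDomain.coe_primesOverFinset span_ne_bot, Set.ncard_coe_finset, ← prod_const]
  refine prod_congr rfl fun P hP => ?_
  obtain ⟨hP1, hP2⟩ := (IsDedekindDomain.mem_primesOverFinset_iff span_ne_bot _).1 hP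
  haveI := hP1
  haveI := hP2
  haveI : P.IsMaximal := Ideal.IsMaximal.of_liesOver_isMaximal P (Ideal.span {(p : ℤ)})
  rw [Ideal.inertiaDegIn_eq_inertiaDeg (Ideal.span {(p : ℤ)}) P Gal(E/ℚ),
    ← Ideal.pow_inertiaDeg p P]

/-- **The Euler factor at a negative integer.** -/
theorem euler_pow (hNp : N.Coprime p) (j : ℕ) :
    ∏ χ ∈ allChars N K E,
        (1 - χ.primitiveCharacter (p : ZMod χ.conductor) * (p : ℂ_[p]) ^ j) =
      ∏ P ∈ IsDedekindDomain.primesOverFinset (Ideal.span {(p : ℤ)}) (𝓞 E),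
        (1 - (Ideal.absNorm P : ℂ_[p]) ^ j) := by
  rw [prod_primes_eq K E fun q => 1 - (q : ℂ_[p]) ^ j, Nat.cast_pow, ← pow_mul, mul_comm, pow_mul]
  have h := congrArg (toPadic p) (prod_euler N K E hNp ((p : AlgNum p) ^ j))
  simpa only [map_prod, map_sub, map_one, map_mul, map_pow, map_natCast, toPadic_algChar] using h

/-- **The Euler factor at one.** -/
theorem euler_inv (hNp : N.Coprime p) :
    ∏ χ ∈ allChars N K E,
        (1 - χ.primitiveCharacter (p : ZMod χ.conductor) / (p : ℂ_[p])) =
      ∏ P ∈ IsDedekindDomain.primesOverFinset (Ideal.span {(p : ℤ)}) (𝓞 E),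
        (1 - 1 / (Ideal.absNorm P : ℂ_[p])) := by
  rw [prod_primes_eq K E fun q => 1 - 1 / (q : ℂ_[p]), Nat.cast_pow, one_div, ← inv_pow]
  have h := congrArg (toPadic p) (prod_euler N K E hNp ((p : AlgNum p)⁻¹))
  simpa only [map_prod, map_sub, map_one, map_mul, map_pow, map_inv₀, map_natCast,
    toPadic_algChar, div_eq_mul_inv] using h

/-- **The values of the zeta function.** -/
theorem exists_rat_value {Zc : ℂ → ℂ} (hZc : DifferentiableOn ℂ Zc {1}ᶜ)
    (hζ : ∀ s : ℂ, 1 < s.re → Zc s = dedekindZeta E s) {m : ℕ} (hm : 2 ≤ m) :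
    ∃ r : ℚ, Zc (1 - (m : ℂ)) = (r : ℂ) ∧
      ∏ χ ∈ allChars N K E, (-bernChar χ.primitiveCharacter m / m) = (r : ℂ_[p]) := by
  set X := univ.filter fun χ : DirichletCharacter ℂ N => χ ∈ FA.AbelianZeta.fieldChars N K E
  obtain ⟨r, hr⟩ := FA.AbelianFE.exists_rat_prod_LFunction (X := X) (fun χ hχ a =>
    mem_filter.2 ⟨mem_univ _, Subgroup.pow_mem _ (mem_filter.1 hχ).2 a⟩)
    (show m - 1 ≠ 0 by omega)
  have hm' : (1 - (m : ℂ)) = -((m - 1 : ℕ) : ℂ) := by
    rw [Nat.cast_sub (by omega)]
    ring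
  have hne : (1 - (m : ℂ)) ≠ 1 := by
    rw [Ne, sub_eq_self, Nat.cast_eq_zero]
    omega
  have hEq : Zc (1 - (m : ℂ)) = FA.AbelianZeta.prodL X (1 - (m : ℂ)) := by
    have hpc : IsPreconnected ({1}ᶜ : Set ℂ) :=
      (isConnected_compl_singleton_of_one_lt_rank (Complex.rank_real_complex ▸ Nat.one_lt_ofNat)
        _).isPreconnected
    refine AnalyticOnNhd.eqOn_of_preconnected_of_eventuallyEq
      (hZc.analyticOnNhd isOpen_compl_singleton)
      (DifferentiableOn.analyticOnNhd (fun t ht => DifferentiableAt.differentiableWithinAt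
        (DifferentiableAt.fun_finsetProd fun χ _ =>
          DirichletCharacter.differentiableAt_LFunction _ _ (.inl ht))) isOpen_compl_singleton)
      hpc (show (2 : ℂ) ∈ ({1}ᶜ : Set ℂ) by simp) ?_ hne
    filter_upwards [(isOpen_lt continuous_const Complex.continuous_re).mem_nhds
      (show (1 : ℝ) < (2 : ℂ).re by norm_num)] with t (ht : 1 < t.re)
    rw [hζ t ht, FA.ConductorDiscr.dedekindZeta_eq_prodL (n := N) K E (RingEquiv.refl E) ht]
    rfl
  rw [hm'] at hEq
  refine ⟨r, by rw [hm']; exact hEq.trans hr, ?_⟩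
  set A : DirichletCharacter ℂ_[p] N → AlgNum p := fun χ => ∑ a : ZMod χ.conductor,
    algChar χ.primitiveCharacter a * (FA.AbelianFE.bernoulliWeight (m - 1) χ.conductor a.val : ℚ)
  have hA : ∏ χ ∈ allChars N K E, A χ = (r : AlgNum p) := by
    refine (toC p).injective ?_
    rw [map_ratCast, ← hr, map_prod]
    refine Eq.trans ?_ (((prod_fieldChars (p := p) N K E
      (FA.AbelianFE.valueNeg (m - 1))).symm).trans (prod_congr rfl fun χ _ => ?_))
    · refine prod_congr rfl fun χ _ => ?_
      rw [FA.AbelianFE.valueNeg_eq, map_sum]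
      exact sum_congr rfl fun a _ => by rw [map_mul, map_ratCast, MulChar.ringHomComp_apply]
    · haveI : NeZero χ.conductor := ⟨χ.conductor_ne_zero⟩
      rw [FA.AbelianFE.valueNeg_eq, FA.AbelianFE.LFunction_neg_nat_eq _ (by omega)]
  rw [← map_ratCast (toPadic p) r, ← hA, map_prod]
  refine prod_congr rfl fun χ _ => ?_
  have hm1 : ((m - 1 : ℕ) : ℂ_[p]) + 1 = (m : ℂ_[p]) := by
    rw [← Nat.cast_add_one, Nat.sub_add_cancel (by omega : 1 ≤ m)]
  simp only [A, map_sum, map_mul, map_ratCast, toPadic_algChar, bernChar,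
    FA.AbelianFE.bernoulliWeight, Nat.sub_add_cancel (by omega : 1 ≤ m)]
  rw [neg_div, mul_sum, sum_div, ← sum_neg_distrib]
  refine sum_congr rfl fun a _ => ?_
  push_cast
  rw [hm1]
  ring

end FA.PadicZetaResidue
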