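import Fermat.Agent.PadicZetaResidue.Trivial
import Fermat.Agent.PadicZetaResidue.Transfer

/-!
# The `p`-adic zeta function of a totally real field in `ℚ(ζ_N)`, `p ∤ N`

It is `-(trivialNum t) / ((p - 1) t)` times the product of the branches `L_p(·, χ₀)`, `χ ≠ 1`
(`zetaFun`); `tendsto_mul_zetaFun` is its residue at `0`.
-/

set_option autoImplicit false
set_option linter.unusedSectionVars false
set_option linter.style.haveILetI false

noncomputable section

open NumberField Finset Filter Topology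
open FA.PadicClassNumber
open FA.PadicDirichletL (branch lValue bernChar)
open scoped Classical

namespace FA.PadicZetaResidue

variable {p : ℕ} [hp : Fact p.Prime]

theorem apply_of_level_one {f : ℕ} [NeZero f] (h : f = 1) (ψ : DirichletCharacter ℂ_[p] f)
    (x : ZMod f) : ψ x = 1 := by
  subst h
  rw [DirichletCharacter.level_one ψ, MulChar.one_apply (isUnit_of_subsingleton _)]

theorem lValue_of_level_one {f : ℕ} [NeZero f] (h : f = 1) (ψ : DirichletCharacter ℂ_[p] f)
    (m : ℕ) : lValue ψ m =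
      -((1 - (p : ℂ_[p]) ^ (m - 1)) * bernChar (1 : DirichletCharacter ℂ_[p] 1) m) / m := by
  subst h
  rw [DirichletCharacter.level_one ψ, lValue, MulChar.one_apply (isUnit_of_subsingleton _),
    one_mul]

theorem coe_ne_zero {x : ℤ_[p]} (hx : x ≠ 0) : ((x : ℚ_[p]) : ℂ_[p]) ≠ 0 :=
  norm_ne_zero_iff.1 (by rw [norm_coe_padicInt]; exact norm_ne_zero_iff.2 hx)

theorem continuous_coe : Continuous fun x : ℤ_[p] => ((x : ℚ_[p]) : ℂ_[p]) :=
  (LipschitzWith.of_dist_le_mul (K := 1) fun x y => by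
    rw [dist_eq_norm, dist_eq_norm, NNReal.coe_one, one_mul, ← norm_coe_padicInt, PadicInt.coe_sub,
      map_sub, UniformSpace.Completion.coe_sub]).continuous

theorem natCast_coe (t : ℕ) : (((t : ℤ_[p]) : ℚ_[p]) : ℂ_[p]) = (t : ℂ_[p]) := by
  rw [PadicInt.coe_natCast]
  simp

theorem pred_ne_zero : ((p - 1 : ℕ) : ℂ_[p]) ≠ 0 :=
  Nat.cast_ne_zero.2 (Nat.sub_ne_zero_of_lt hp.out.one_lt)

/-- Functions continuous off `0` are known from their values at the integers from `2` on. -/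
theorem eqOn_of_agree {F G : ℤ_[p] → ℂ_[p]} (hF : ContinuousOn F {0}ᶜ) (hG : ContinuousOn G {0}ᶜ)
    (h : ∀ t : ℕ, 2 ≤ t → F t = G t) : Set.EqOn F G {0}ᶜ := fun x hx => by
  have hnhds : ({0}ᶜ : Set ℤ_[p]) ∈ 𝓝 x := isOpen_compl_singleton.mem_nhds hx
  refine tendsto_nhds_unique ((hF.continuousAt hnhds).tendsto.comp (tendsto_approx x))
    (((hG.continuousAt hnhds).tendsto.comp (tendsto_approx x)).congr fun N => ?_)
  have := Nat.one_le_pow N p hp.out.pos
  exact (h _ (by omega)).symm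

variable (N : ℕ) [NeZero N] (K : Type) [Field K] [NumberField K]
  [IsCyclotomicExtension {N} ℚ K] [IsAbelianGalois ℚ K] (E : IntermediateField ℚ K) [IsGalois ℚ E]

/-- **The `p`-adic zeta function**, as a function of `t`, `s = 1 - (p - 1) t`. -/
def zetaFun (x : ℤ_[p]) : ℂ_[p] :=
  -trivialNum x / (((p - 1 : ℕ) : ℂ_[p]) * ((x : ℚ_[p]) : ℂ_[p])) *
    ∏ χ ∈ charSet N K E, branch χ.primitiveCharacter 0 x

variable [IsTotallyReal E]

theorem continuous_prod_branch (hNp : N.Coprime p) :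
    Continuous fun x : ℤ_[p] => ∏ χ ∈ charSet N K E, branch χ.primitiveCharacter 0 x :=
  continuous_finsetProd _ fun χ hχ => by
    obtain ⟨hne, -, -⟩ := primitive_spec K E (mem_filter.1 hχ).2.1 (mem_filter.1 hχ).2.2
    exact FA.PadicDirichletL.continuous_branch (hNp.coprime_dvd_left χ.conductor_dvd_level) hne 0

theorem continuousOn_zetaFun (hNp : N.Coprime p) :
    ContinuousOn (zetaFun (p := p) N K E) {0}ᶜ :=
  (continuous_trivialNum.neg.continuousOn.div (continuous_coe.const_mul _).continuousOn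
    fun _ hx => mul_ne_zero pred_ne_zero (coe_ne_zero hx)).mul
      (continuous_prod_branch N K E hNp).continuousOn

/-- **The interpolation.** -/
theorem zetaFun_natCast (hNp : N.Coprime p) {Zc : ℂ → ℂ} (hZc : DifferentiableOn ℂ Zc {1}ᶜ)
    (hζ : ∀ s : ℂ, 1 < s.re → Zc s = dedekindZeta E s) {m t : ℕ} (hmt : m = (p - 1) * t)
    (hm : 2 ≤ m) {r : ℚ} (hr : Zc (1 - (m : ℂ)) = (r : ℂ)) :
    zetaFun N K E (t : ℤ_[p]) = (r : ℂ_[p]) *
      ∏ P ∈ IsDedekindDomain.primesOverFinset (Ideal.span {(p : ℤ)}) (𝓞 E),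
        (1 - (Ideal.absNorm P : ℂ_[p]) ^ (m - 1)) := by
  obtain ⟨r', hr', hprod⟩ := exists_rat_value (p := p) N K E hZc hζ hm
  obtain rfl : r' = r := Rat.cast_injective (hr'.symm.trans hr)
  have h1 : trivialNum (t : ℤ_[p]) =
      (1 - (p : ℂ_[p]) ^ (m - 1)) * bernChar (1 : DirichletCharacter ℂ_[p] 1) m := by
    rw [trivialNum_natCast, numer_eq (by omega), ← hmt]
  have h2 : lValue (1 : DirichletCharacter ℂ_[p] N).primitiveCharacter m =
      -trivialNum (t : ℤ_[p]) / (((p - 1 : ℕ) : ℂ_[p]) * (t : ℂ_[p])) := by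
    rw [lValue_of_level_one (DirichletCharacter.conductor_one) _, h1, ← Nat.cast_mul, ← hmt]
  rw [zetaFun, natCast_coe, ← h2, prod_congr rfl fun χ hχ => show
      branch χ.primitiveCharacter 0 (t : ℤ_[p]) = lValue χ.primitiveCharacter m by
    obtain ⟨hne, -, -⟩ := primitive_spec K E (mem_filter.1 hχ).2.1 (mem_filter.1 hχ).2.2
    rw [FA.PadicDirichletL.branch_natCast (hNp.coprime_dvd_left χ.conductor_dvd_level) hne
      (by omega), zero_add, ← hmt],
    ← prod_allChars N K E fun χ => lValue χ.primitiveCharacter m,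
    ← hprod, ← euler_pow N K E hNp (m - 1), ← prod_mul_distrib]
  exact prod_congr rfl fun χ _ => by rw [lValue]; ring

/-- **The residue.** -/
theorem tendsto_mul_zetaFun (hNp : N.Coprime p) (ι : E →+* ℂ_[p])
    (e : Fin (Units.rank E) ≃ {σ : Gal(E/ℚ) // σ ≠ 1}) :
    ∃ s : ℂ_[p], s ^ 2 = (discr E : ℂ_[p]) ∧
      Tendsto (fun x : ℤ_[p] => ((x : ℚ_[p]) : ℂ_[p]) * zetaFun N K E x) (𝓝[≠] 0)
        (𝓝 (-((∏ P ∈ IsDedekindDomain.primesOverFinset (Ideal.span {(p : ℤ)}) (𝓞 E),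
          (1 - 1 / (Ideal.absNorm P : ℂ_[p]))) *
          (2 ^ Units.rank E * (classNumber E : ℂ_[p]) * padicRegulator K E ι e) / s) /
            ((p - 1 : ℕ) : ℂ_[p]))) := by
  obtain ⟨s, hs, hprod⟩ := padicL_prod_eq N K E hNp ι e
  refine ⟨s, hs, ?_⟩
  have hlim := (((continuous_trivialNum.neg.div_const ((p - 1 : ℕ) : ℂ_[p])).mul
    (continuous_prod_branch N K E hNp)).tendsto (0 : ℤ_[p])).mono_left
      (nhdsWithin_le_nhds (s := {0}ᶜ))
  convert hlim.congr' ?_ using 2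
  · simp only [Pi.mul_apply, Pi.neg_apply]
    rw [trivialNum_zero, hprod, ← euler_inv N K E hNp, prod_allChars N K E,
      apply_of_level_one DirichletCharacter.conductor_one]
    ring
  · filter_upwards [self_mem_nhdsWithin] with x (hx : x ≠ 0)
    rw [zetaFun, Pi.mul_apply, Pi.neg_apply]
    field_simp [coe_ne_zero hx]

/-- The residue is not zero. -/
theorem residue_ne_zero (hNp : N.Coprime p) (ι : E →+* ℂ_[p])
    (e : Fin (Units.rank E) ≃ {σ : Gal(E/ℚ) // σ ≠ 1}) {s : ℂ_[p]}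
    (hs : s ^ 2 = (discr E : ℂ_[p])) :
    -((∏ P ∈ IsDedekindDomain.primesOverFinset (Ideal.span {(p : ℤ)}) (𝓞 E),
      (1 - 1 / (Ideal.absNorm P : ℂ_[p]))) *
      (2 ^ Units.rank E * (classNumber E : ℂ_[p]) * padicRegulator K E ι e) / s) /
        ((p - 1 : ℕ) : ℂ_[p]) ≠ 0 := by
  have hs0 : s ≠ 0 := fun h => by
    rw [h, zero_pow two_ne_zero, eq_comm, Int.cast_eq_zero] at hs
    exact discr_ne_zero E hs
  refine div_ne_zero (neg_ne_zero.2 (div_ne_zero (mul_ne_zero ?_ (mul_ne_zero (mul_ne_zero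
    (pow_ne_zero _ two_ne_zero) (Nat.cast_ne_zero.2 ?_))
      (padicRegulator_ne_zero N K E hNp ι e))) hs0)) pred_ne_zero
  · refine prod_ne_zero_iff.2 fun P hP => ?_
    obtain ⟨hP1, hP2⟩ := (IsDedekindDomain.mem_primesOverFinset_iff span_ne_bot _).1 hP
    haveI := hP1
    haveI := hP2
    intro h
    have h1 := sub_eq_zero.1 h
    have h2 : (Ideal.absNorm P : ℂ_[p]) = 1 := by
      simpa using (eq_div_iff (fun h0 => by rw [h0, div_zero] at h1; exact one_ne_zero h1)).1 h1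
    rw [Nat.cast_eq_one, Ideal.absNorm_eq_one_iff] at h2
    exact hP1.ne_top h2
  · exact Fintype.card_ne_zero

end FA.PadicZetaResidue
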