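import Fermat.Agent.PadicDirichletL.Branch

/-!
# The trivial character

`(1 - p^(m-1)) B_m` at `m = (p - 1) t` is Lipschitz in `t`, so extends continuously to `ℤ_p`
(`trivialNum`); its value at `0` is `1 - 1/p`. It is the mean of `b^m` over the `b` prime to `p`.
-/

set_option autoImplicit false
set_option linter.unusedSectionVars false
set_option linter.style.haveILetI false

noncomputable section

open Finset Filter Topology
open FA.PadicDirichletL

namespace FA.PadicZetaResidue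

variable {p : ℕ} [hp : Fact p.Prime]

theorem norm_natCast_ge {k : ℕ} : ((p : ℝ)⁻¹) ^ k ≤ ‖((k + 1 : ℕ) : ℂ_[p])‖ := by
  rw [FA.GrossKoblitz.norm_natCast_eq_pow k.succ_ne_zero, FA.GrossKoblitz.norm_prime_eq]
  refine pow_le_pow_of_le_one (by positivity) inv_prime_lt_one.le ?_
  by_contra h
  have h1 : p ^ (k + 1) ∣ k + 1 :=
    (padicValNat_dvd_iff_le k.succ_ne_zero).2 (by omega)
  have h2 := Nat.le_of_dvd k.succ_pos h1
  exact absurd (Nat.lt_pow_self hp.out.one_lt) (not_lt.2 h2)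

/-- Powers of nearby numbers. -/
theorem norm_pow_sub_pow_le {x h : ℂ_[p]} (hx : ‖x‖ ≤ 1) (hh : ‖h‖ ≤ (p : ℝ)⁻¹) (m : ℕ) :
    ‖(x + h) ^ m - x ^ m‖ ≤ ‖(m : ℂ_[p])‖ * ‖h‖ := by
  rw [add_comm x h, add_pow, sum_range_succ', pow_zero, one_mul, Nat.sub_zero,
    Nat.choose_zero_right, Nat.cast_one, mul_one, add_sub_cancel_right]
  refine IsUltrametricDist.norm_sum_le_of_forall_le_of_nonneg (by positivity) fun k _ => ?_
  have hk : 0 < ‖((k + 1 : ℕ) : ℂ_[p])‖ := norm_pos_iff.2 (Nat.cast_ne_zero.2 k.succ_ne_zero)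
  have hc : ‖((k + 1 : ℕ) : ℂ_[p])‖ * ‖((m.choose (k + 1) : ℕ) : ℂ_[p])‖ ≤ ‖(m : ℂ_[p])‖ := by
    rcases m with _ | m
    · simp
    · rw [← norm_mul, ← Nat.cast_mul, mul_comm (k + 1), ← Nat.add_one_mul_choose_eq, Nat.cast_mul,
        norm_mul]
      exact mul_le_of_le_one_right (norm_nonneg _) (IsUltrametricDist.norm_natCast_le_one _ _)
  refine le_of_mul_le_mul_left (?_ : ‖((k + 1 : ℕ) : ℂ_[p])‖ * _ ≤ _) hk
  rw [norm_mul, norm_mul, norm_pow, pow_succ]
  calc ‖((k + 1 : ℕ) : ℂ_[p])‖ * (‖h‖ ^ k * ‖h‖ * ‖x ^ (m - (k + 1))‖ *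
        ‖((m.choose (k + 1) : ℕ) : ℂ_[p])‖)
      = ‖h‖ ^ k * ‖x ^ (m - (k + 1))‖ *
          (‖((k + 1 : ℕ) : ℂ_[p])‖ * ‖((m.choose (k + 1) : ℕ) : ℂ_[p])‖) * ‖h‖ := by ring
    _ ≤ ‖((k + 1 : ℕ) : ℂ_[p])‖ * 1 * ‖(m : ℂ_[p])‖ * ‖h‖ := by
        gcongr
        · exact (pow_le_pow_left₀ (norm_nonneg _) hh k).trans norm_natCast_ge
        · rw [norm_pow]
          exact pow_le_one₀ (norm_nonneg _) hx
    _ = _ := by ring

/-- The mean over the residues prime to `p`. -/
def mean (g : ℕ → ℂ_[p]) (n : ℕ) : ℂ_[p] := ((p : ℂ_[p]) ^ n)⁻¹ * ∑ b ∈ unitRes p n, g b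

theorem mean_eq_unitMean (g : ℕ → ℂ_[p]) (n : ℕ) :
    mean g n = unitMean (1 : DirichletCharacter ℂ_[p] 1) g n := by
  have h1 : ∀ a : ZMod 1, (1 : DirichletCharacter ℂ_[p] 1) a = 1 :=
    fun a => MulChar.one_apply (isUnit_of_subsingleton a)
  simp [mean, unitMean, unitRes, h1]

theorem mean_succ (g : ℕ → ℂ_[p]) {n : ℕ} (hn : n ≠ 0) :
    mean g (n + 1) - mean g n =
      ((p : ℂ_[p]) ^ (n + 1))⁻¹ *
        ∑ b ∈ unitRes p n, ∑ c ∈ range p, (g (b + p ^ n * c) - g b) := by
  have hp0 : (p : ℂ_[p]) ≠ 0 := FA.GrossKoblitz.natCast_prime_ne_zero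
  have hsplit : ∑ b ∈ unitRes p (n + 1), g b =
      ∑ b ∈ unitRes p n, ∑ c ∈ range p, g (b + p ^ n * c) := by
    rw [unitRes, unitRes, sum_filter, sum_filter, pow_succ, sum_range_blocks (p ^ n)]
    refine sum_congr rfl fun b _ => ?_
    simp only [dvd_add_pow_mul_iff hn]
    split_ifs with h <;> simp
  rw [mean, mean, hsplit]
  simp only [sum_sub_distrib, sum_const, card_range, nsmul_eq_mul, ← mul_sum]
  field_simp
  ring

/-- **Uniform continuity of the means.** -/
theorem norm_mean_sub_le (t s : ℕ) : ∀ n : ℕ,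
    ‖mean (p := p) (fun b => (b : ℂ_[p]) ^ ((p - 1) * (t + s))) n -
      mean (fun b => (b : ℂ_[p]) ^ ((p - 1) * t)) n‖ ≤ p * ‖(s : ℂ_[p])‖ := by
  set g := fun b : ℕ => (b : ℂ_[p]) ^ ((p - 1) * (t + s)) - (b : ℂ_[p]) ^ ((p - 1) * t)
  have hsub : ∀ n, mean (p := p) (fun b => (b : ℂ_[p]) ^ ((p - 1) * (t + s))) n -
      mean (fun b => (b : ℂ_[p]) ^ ((p - 1) * t)) n = mean g n := fun n => by
    simp only [mean, g, sum_sub_distrib, mul_sub]
  simp only [hsub]
  have hg : ∀ b : ℕ, g b = (b : ℂ_[p]) ^ ((p - 1) * t) * ((b : ℂ_[p]) ^ ((p - 1) * s) - 1) :=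
    fun b => by simp only [g, mul_add, pow_add]; ring
  have hle : ∀ m : ℕ, ‖(((p - 1) * m : ℕ) : ℂ_[p])‖ ≤ ‖(m : ℂ_[p])‖ := fun m => by
    rw [Nat.cast_mul, norm_mul]
    exact mul_le_of_le_one_left (norm_nonneg _) (IsUltrametricDist.norm_natCast_le_one _ _)
  have hsmall : ∀ {b : ℕ}, ¬ p ∣ b →
      ‖(b : ℂ_[p]) ^ ((p - 1) * s) - 1‖ ≤ ‖(s : ℂ_[p])‖ * (p : ℝ)⁻¹ := fun {b} hb => by
    have h1 := norm_pow_totient_sub_one_le (p := p) hb 0
    rw [pow_zero, mul_one, zero_add, pow_one] at h1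
    have h2 := norm_pow_sub_pow_le (x := 1) (by simp) h1 s
    rw [add_sub_cancel, one_pow, ← pow_mul] at h2
    exact h2.trans (mul_le_mul_of_nonneg_left h1 (norm_nonneg _))
  have hp1 : (1 : ℝ) ≤ p := by exact_mod_cast hp.out.one_le
  intro n
  induction n with
  | zero => simp [mean, unitRes, Finset.filter_singleton]; positivity
  | succ n ih =>
    rcases eq_or_ne n 0 with rfl | hn
    · rw [mean, norm_mul, norm_inv, norm_prime_pow, inv_pow, inv_inv, zero_add, pow_one]
      refine mul_le_mul_of_nonneg_left (IsUltrametricDist.norm_sum_le_of_forall_le_of_nonneg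
        (norm_nonneg _) fun b hb => ?_) (by positivity)
      rw [hg, norm_mul, norm_pow]
      exact (mul_le_of_le_one_left (norm_nonneg _) (pow_le_one₀ (norm_nonneg _)
        (IsUltrametricDist.norm_natCast_le_one _ _))).trans ((hsmall (not_dvd_of_mem hb)).trans
          (mul_le_of_le_one_right (norm_nonneg _) inv_prime_lt_one.le))
    · rw [← sub_add_cancel (mean g (n + 1)) (mean g n)]
      refine (IsUltrametricDist.norm_add_le_max _ _).trans (max_le ?_ ih)
      rw [mean_succ g hn, norm_mul, norm_inv, norm_prime_pow, inv_pow, inv_inv]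
      calc (p : ℝ) ^ (n + 1) * _
          ≤ (p : ℝ) ^ (n + 1) * (‖(s : ℂ_[p])‖ * ((p : ℝ)⁻¹) ^ n) := by
            gcongr
            refine IsUltrametricDist.norm_sum_le_of_forall_le_of_nonneg (by positivity)
              fun b hb => IsUltrametricDist.norm_sum_le_of_forall_le_of_nonneg (by positivity)
              fun c _ => ?_
            set x := (b : ℂ_[p])
            set h := (p : ℂ_[p]) ^ n * c
            have hx : ‖x‖ ≤ 1 := IsUltrametricDist.norm_natCast_le_one _ _
            have hhn : ‖h‖ ≤ ((p : ℝ)⁻¹) ^ n := by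
              rw [norm_mul, norm_prime_pow]
              exact mul_le_of_le_one_right (by positivity)
                (IsUltrametricDist.norm_natCast_le_one _ _)
            have hh1 : ‖h‖ ≤ (p : ℝ)⁻¹ := hhn.trans
              (pow_le_of_le_one (by positivity) inv_prime_lt_one.le hn)
            rw [hg, hg, Nat.cast_add, Nat.cast_mul, Nat.cast_pow,
              show (x + h) ^ ((p - 1) * t) * ((x + h) ^ ((p - 1) * s) - 1) -
                  x ^ ((p - 1) * t) * (x ^ ((p - 1) * s) - 1) =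
                (x + h) ^ ((p - 1) * t) * ((x + h) ^ ((p - 1) * s) - x ^ ((p - 1) * s)) +
                  (x ^ ((p - 1) * s) - 1) * ((x + h) ^ ((p - 1) * t) - x ^ ((p - 1) * t)) by ring]
            refine (IsUltrametricDist.norm_add_le_max _ _).trans (max_le ?_ ?_)
            · rw [norm_mul, norm_pow]
              refine (mul_le_of_le_one_left (norm_nonneg _) (pow_le_one₀ (norm_nonneg _)
                ((IsUltrametricDist.norm_add_le_max _ _).trans
                  (max_le hx (hh1.trans inv_prime_lt_one.le))))).trans ?_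
              exact (norm_pow_sub_pow_le hx hh1 _).trans
                (mul_le_mul (hle s) hhn (norm_nonneg _) (norm_nonneg _))
            · rw [norm_mul]
              refine mul_le_mul ((hsmall (not_dvd_of_mem hb)).trans
                (mul_le_of_le_one_right (norm_nonneg _) inv_prime_lt_one.le))
                ((norm_pow_sub_pow_le hx hh1 _).trans ((mul_le_of_le_one_left (norm_nonneg _)
                  (IsUltrametricDist.norm_natCast_le_one _ _)).trans hhn))
                (norm_nonneg _) (norm_nonneg _)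
        _ = p * ‖(s : ℂ_[p])‖ := by
            rw [pow_succ, inv_pow]
            field_simp

/-- The limit of the means. -/
def numer (t : ℕ) : ℂ_[p] :=
  limUnder atTop (mean fun b => (b : ℂ_[p]) ^ ((p - 1) * t))

theorem mean_one {n : ℕ} (hn : n ≠ 0) : mean (p := p) (fun _ => 1) n = 1 - 1 / (p : ℂ_[p]) := by
  induction n with
  | zero => exact absurd rfl hn
  | succ n ih =>
    rcases eq_or_ne n 0 with rfl | h
    · have h0 : (range p).filter (¬ p ∣ ·) = (range p).erase 0 := by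
        ext b
        simp only [mem_filter, mem_range, mem_erase]
        exact ⟨fun hb => ⟨fun e => hb.2 (e ▸ dvd_zero p), hb.1⟩,
          fun hb => ⟨hb.2, fun e => hb.1 (Nat.eq_zero_of_dvd_of_lt e hb.2)⟩⟩
      rw [mean, unitRes, zero_add, pow_one, pow_one, h0, sum_const, card_erase_of_mem
        (mem_range.2 hp.out.pos), card_range, nsmul_eq_mul, mul_one, Nat.cast_sub hp.out.one_le,
        Nat.cast_one, mul_sub, inv_mul_cancel₀ FA.GrossKoblitz.natCast_prime_ne_zero, mul_one,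
        one_div]
    · rw [← sub_add_cancel (mean _ (n + 1)) (mean _ n), mean_succ _ h, ih h]
      simp

theorem tendsto_numer (t : ℕ) :
    Tendsto (mean fun b => (b : ℂ_[p]) ^ ((p - 1) * t)) atTop (𝓝 (numer t)) := by
  rcases eq_or_ne t 0 with rfl | ht
  · refine tendsto_nhds_limUnder ⟨1 - 1 / (p : ℂ_[p]), Tendsto.congr' ?_ tendsto_const_nhds⟩
    filter_upwards [eventually_ne_atTop 0] with n hn
    simp only [Nat.mul_zero, pow_zero]
    exact (mean_one hn).symm
  · refine tendsto_nhds_limUnder ⟨(1 - (1 : DirichletCharacter ℂ_[p] 1) p *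
      (p : ℂ_[p]) ^ ((p - 1) * t - 1)) * bernChar (1 : DirichletCharacter ℂ_[p] 1) ((p - 1) * t),
      ?_⟩
    exact (tendsto_unitMean (1 : DirichletCharacter ℂ_[p] 1)
      (one_le_expo (p := p) 0 (Nat.pos_of_ne_zero ht) |>.trans_eq (zero_add _))).congr fun n =>
        (mean_eq_unitMean _ n).symm

theorem numer_zero : numer 0 = 1 - 1 / (p : ℂ_[p]) := by
  refine tendsto_nhds_unique (tendsto_numer 0) (Tendsto.congr' ?_ tendsto_const_nhds)
  filter_upwards [eventually_ne_atTop 0] with n hn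
  simp only [Nat.mul_zero, pow_zero]
  exact (mean_one hn).symm

theorem numer_eq {t : ℕ} (h : 1 ≤ (p - 1) * t) :
    numer t = (1 - (p : ℂ_[p]) ^ ((p - 1) * t - 1)) *
      bernChar (1 : DirichletCharacter ℂ_[p] 1) ((p - 1) * t) := by
  refine (tendsto_nhds_unique (tendsto_numer t)
    ((tendsto_unitMean (1 : DirichletCharacter ℂ_[p] 1) h).congr fun n =>
      (mean_eq_unitMean _ n).symm)).trans ?_
  rw [MulChar.one_apply (isUnit_of_subsingleton _), one_mul]

theorem norm_coe_padicInt (x : ℤ_[p]) : ‖((x : ℚ_[p]) : ℂ_[p])‖ = ‖x‖ := by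
  rw [PadicComplex.norm_extends', PadicInt.norm_def]

theorem norm_numer_sub_le (t t' : ℕ) :
    ‖numer (p := p) t - numer t'‖ ≤ p * ‖(t : ℤ_[p]) - (t' : ℤ_[p])‖ := by
  suffices h : ∀ a s : ℕ, ‖numer (p := p) (a + s) - numer a‖ ≤ p * ‖(s : ℤ_[p])‖ by
    rcases le_total t' t with hle | hle
    · obtain ⟨s, rfl⟩ := Nat.exists_eq_add_of_le hle
      simpa using h t' s
    · obtain ⟨s, rfl⟩ := Nat.exists_eq_add_of_le hle
      rw [norm_sub_rev, norm_sub_rev (t : ℤ_[p])]
      simpa using h t s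
  intro a s
  rw [← norm_coe_padicInt, PadicInt.coe_natCast, map_natCast]
  push_cast
  exact le_of_tendsto' ((tendsto_numer _).sub (tendsto_numer a)).norm (norm_mean_sub_le a s)

/-- **The numerator for the trivial character.** -/
def trivialNum (x : ℤ_[p]) : ℂ_[p] := limUnder atTop fun N => numer (x.appr N + 2 * p ^ N)

theorem norm_approx_le (x : ℤ_[p]) (N : ℕ) :
    ‖x - ((x.appr N + 2 * p ^ N : ℕ) : ℤ_[p])‖ ≤ ((p : ℝ)⁻¹) ^ N := by
  rw [inv_pow, ← zpow_natCast, ← zpow_neg, PadicInt.norm_le_pow_iff_mem_span_pow,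
    show x - ((x.appr N + 2 * p ^ N : ℕ) : ℤ_[p]) =
      (x - (x.appr N : ℤ_[p])) - 2 * (p : ℤ_[p]) ^ N by push_cast; ring]
  exact sub_mem (PadicInt.appr_spec N x) (Ideal.mul_mem_left _ _ (Ideal.mem_span_singleton_self _))

theorem tendsto_approx (x : ℤ_[p]) :
    Tendsto (fun N => ((x.appr N + 2 * p ^ N : ℕ) : ℤ_[p])) atTop (𝓝 x) := by
  rw [tendsto_iff_norm_sub_tendsto_zero]
  refine squeeze_zero (fun N => norm_nonneg _) (fun N => ?_) (tendsto_inv_prime_pow (p := p))
  rw [norm_sub_rev]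
  exact norm_approx_le x N

theorem tendsto_trivialNum (x : ℤ_[p]) :
    Tendsto (fun N => numer (p := p) (x.appr N + 2 * p ^ N)) atTop (𝓝 (trivialNum x)) := by
  refine CauchySeq.tendsto_limUnder (cauchySeq_of_le_tendsto_0'
    (fun M => (p : ℝ) * ((p : ℝ)⁻¹) ^ M) (fun M M' hle => ?_) ?_)
  · rw [dist_eq_norm]
    refine (norm_numer_sub_le _ _).trans (mul_le_mul_of_nonneg_left ?_ (by positivity))
    exact norm_sub_le_of_both (norm_approx_le x M) ((norm_approx_le x M').trans
      (pow_le_pow_of_le_one (by positivity) inv_prime_lt_one.le hle))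
  · simpa using (tendsto_inv_prime_pow (p := p)).const_mul (p : ℝ)

theorem trivialNum_natCast (t : ℕ) : trivialNum (t : ℤ_[p]) = numer t := by
  refine tendsto_nhds_unique (tendsto_trivialNum _) (tendsto_iff_norm_sub_tendsto_zero.2 ?_)
  refine squeeze_zero (fun N => norm_nonneg _) (fun N => (norm_numer_sub_le _ t).trans ?_)
    (show Tendsto (fun N => (p : ℝ) * ((p : ℝ)⁻¹) ^ N) atTop (𝓝 0) by
      simpa using (tendsto_inv_prime_pow (p := p)).const_mul (p : ℝ))
  rw [norm_sub_rev]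
  exact mul_le_mul_of_nonneg_left (norm_approx_le (t : ℤ_[p]) N) (by positivity)

theorem trivialNum_zero : trivialNum (0 : ℤ_[p]) = 1 - 1 / (p : ℂ_[p]) := by
  rw [← Nat.cast_zero, trivialNum_natCast, numer_zero]

theorem continuous_trivialNum : Continuous (trivialNum (p := p)) :=
  (LipschitzWith.of_dist_le_mul (K := (p : NNReal)) fun x y => by
    rw [dist_eq_norm, dist_eq_norm, NNReal.coe_natCast]
    exact le_of_tendsto_of_tendsto' ((tendsto_trivialNum x).sub (tendsto_trivialNum y)).norm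
      (((tendsto_approx x).sub (tendsto_approx y)).norm.const_mul (p : ℝ))
      fun N => norm_numer_sub_le _ _).continuous

end FA.PadicZetaResidue
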